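/-
GATE-E / GE9-ASM (helper73): **the induction over `Σ` of E9 in the vocabulary of the engine contract**
(`GE/Graph/RTStmt(W)`, helper10) on top of `GE9/Ind/RT` (helper63) and `GE9/CotGrowth/*`.

* `LevelOK p Smin Σ N S` : the four level clauses of `RTConcl` VERBATIM;
* `StepInputFL Y q`, `StepInputSO Y q` : ONE record = everything the Hecke side must deliver to go
  from the stage `Y : RTNum ρbar (cond 𝒪 p Smin Σ) d` to `insert q Σ` (= the E9-INST contract):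
  the raw next stage (binders of `RTNum.next`), "same eigensystem outside `B`"
  (`CotGrowth.hsame_of_hecke`), `a_q` with `c_q ≠ 0`, (ETA), (M1), and the level clauses;
  (GROWTH) is NOT a field: it is discharged by `CotGrowth.nextFL` / `nextSO`;
* `StepInputFL.next`, `StepInputSO.next` : the next `RTNum`;
* **`exists_rtNum_condFL`**, **`exists_rtNum_condSO`** : base at `Σ = ∅` + a step supplier over
  `Sig` ⟹ `∃ Y : RTNum ρbar (cond 𝒪 p Smin Sig) d`, `LevelOK`;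
* `exists_rtData_condFL`, `exists_rtData_condSO` : the last `∃ X' : RTData …` of `RTConcl`.
-/
import Mathlib
import Fermat.Agent.GE9.CotGrowth.Same

set_option autoImplicit false
set_option linter.unusedSectionVars false
set_option linter.style.haveILetI false

namespace Fermat.Agent.GE9.Asm

open IsLocalRing Module Matrix Function Polynomial
open Fermat.Agent.Common_helper32 Fermat.Agent.GE.Graph Fermat.Agent.GE9.Ind CuspForm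
  Fermat.Agent.GE9.TanGrow Fermat.Agent.GE9.CotGrowth Fermat.Agent.GE9.NumCrit

/-- the trace from a characteristic polynomial `X² − tX + d` -/
theorem trace_eq_of_charpoly {A : Type} [CommRing A] [IsLocalRing A] (ρ : GaloisRepAdic A)
    (σ : GQ) (t d : A) (h : LinearMap.charpoly (ρ.ρ σ) = X ^ 2 - C t * X + C d) :
    ρ.trace σ = t := by
  have h1 : (mat ρ σ).charpoly = X ^ 2 - C t * X + C d := by
    rw [mat, LinearMap.charpoly_toMatrix]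
    exact h
  rw [Matrix.charpoly_fin_two] at h1
  have h2 := congrArg (fun Q => Polynomial.coeff Q 1) h1
  simp only [Polynomial.coeff_add, Polynomial.coeff_sub, Polynomial.coeff_X_pow,
    Polynomial.coeff_C_mul, Polynomial.coeff_X_one, Polynomial.coeff_C] at h2
  norm_num at h2
  rw [GaloisRepAdic.trace, ← trace_mat]
  exact h2

/-- **the four level clauses of `RTConcl`** for the level `N` and the removed set `S`. -/
def LevelOK (p : ℕ) (Smin Sig : Finset ℕ) (N : ℕ) (S : Set ℕ) : Prop :=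
  ¬ p ^ 2 ∣ N ∧ (∀ q : ℕ, q.Prime → ¬ q ^ 3 ∣ N) ∧
    (∀ q ∈ Smin ∪ Sig, q ≠ p → q ∣ N) ∧ (∀ ℓ ∈ S, ℓ.Prime → ℓ ∣ N ∨ ℓ = p)

section Records

variable {𝒪 : Type} [CommRing 𝒪] [IsDomain 𝒪] [IsDiscreteValuationRing 𝒪]
  [IsAdicComplete (maximalIdeal 𝒪) 𝒪] [Finite (ResidueField 𝒪)]
  {ρbar : ResidualGaloisRep (ResidueField 𝒪)} {p : ℕ} {Smin : Finset ℕ}

/-- **The E9-INST contract, flat case**: what the Hecke side delivers to add the prime `q` to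
`Σ = Sig`.  (GROWTH) is not a field. -/
structure StepInputFL {d : ℕ} {Sig : Finset ℕ} (Y : RTNum ρbar (condFL 𝒪 p Smin Sig) d)
    (q : ℕ) (hq : q.Prime) : Type 1 where
  /-- the deformation ring of the next stage -/
  D' : GaloisRep.DeformationRingData 𝒪 ρbar (condFL 𝒪 p Smin (insert q Sig))
  /-- the next level -/
  N' : ℕ
  [neN' : NeZero N']
  /-- the primes removed from the next Hecke algebra -/
  S' : Set ℕ
  /-- the next Hecke ring -/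
  T' : Type
  [crT' : CommRing T']
  [locT' : IsLocalRing T']
  [algT' : Algebra 𝒪 T']
  [finT' : Module.Finite 𝒪 T']
  [freeT' : Module.Free 𝒪 T']
  π' : heckeAlgebra N' 2 S' →+* T'
  ρT' : GaloisRepAdic T'
  hcp' : ∀ (r : ℕ) (hr : r.Prime) (hrN : ¬ r ∣ N') (hrS : r ∉ S'),
    ∀ A : ValuationSubring (AlgebraicClosure ℚ), A.LiesOverPrime r →
      ∀ σ : GQ, A.IsFrobeniusAt σ r →
        LinearMap.charpoly (ρT'.ρ σ) =
          X ^ 2 - C (π' (heckeAlgebra.T hr hrN hrS)) * X + C ((r : T'))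
  φ' : D'.R →ₐ[𝒪] T'
  hφ' : Function.Surjective φ'
  φ'_local : IsLocalHom (φ' : D'.R →+* T')
  φ'_ρ : (D'.ρ.baseChangeAlong (φ' : D'.R →+* T') φ'_local).IsEquiv ρT'
  /-- the modular point of the next stage -/
  πO' : T' →ₐ[𝒪] 𝒪
  hη' : etaIdeal πO' ≠ ⊥
  /-- a presentation of the next deformation ring -/
  m : ℕ
  γ : MvPowerSeries (Fin m) 𝒪 →ₐ[𝒪] D'.R
  hγ : Function.Surjective γ
  /-- the two modular points have the same eigenvalues outside `B` -/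
  B : Finset ℕ
  hB : ∀ ℓ : ℕ, ℓ.Prime → ℓ ∉ B → ¬ ℓ ∣ Y.rt.N ∧ ℓ ∉ Y.rt.S ∧ ¬ ℓ ∣ N' ∧ ℓ ∉ S'
  heig : ∀ (ℓ : ℕ) (hℓ : ℓ.Prime) (hℓN : ¬ ℓ ∣ Y.rt.N) (hℓS : ℓ ∉ Y.rt.S) (hℓN' : ¬ ℓ ∣ N')
    (hℓS' : ℓ ∉ S'), ℓ ∉ B →
      πO' (π' (heckeAlgebra.T hℓ hℓN' hℓS')) = Y.πO (Y.rt.π (heckeAlgebra.T hℓ hℓN hℓS))
  /-- `q` is prime to the previous level: `a_q` is the eigenvalue of `T_q` -/
  hqN : ¬ q ∣ Y.rt.N
  hqS : q ∉ Y.rt.S
  /-- a matrix with trace `a_q` (e.g. `!![a_q, 0; 0, 0]`) -/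
  f₀ : Matrix (Fin 2) (Fin 2) 𝒪
  hf₀ : f₀.trace = Y.πO (Y.rt.π (heckeAlgebra.T hq hqN hqS))
  hc : wilesFactor f₀ (q : 𝒪) ≠ 0
  /-- `#Ω` of the next stage, (ETA) and (M1) -/
  w' : ℕ
  heta : Y.w * Nat.card (𝒪 ⧸ Ideal.span {wilesFactor f₀ (q : 𝒪)}) ^ d ≤ w'
  hM1 : w' ≤ etaCard πO' ^ d
  /-- the level clauses of the next stage -/
  hlev : LevelOK p Smin (insert q Sig) N' S'

attribute [instance] StepInputFL.neN' StepInputFL.crT' StepInputFL.locT' StepInputFL.algT'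
  StepInputFL.finT' StepInputFL.freeT'

/-- **The E9-INST contract, strict-ordinary case.** -/
structure StepInputSO {d : ℕ} {Sig : Finset ℕ} (Y : RTNum ρbar (condSO 𝒪 p Smin Sig) d)
    (q : ℕ) (hq : q.Prime) : Type 1 where
  /-- the deformation ring of the next stage -/
  D' : GaloisRep.DeformationRingData 𝒪 ρbar (condSO 𝒪 p Smin (insert q Sig))
  /-- the next level -/
  N' : ℕ
  [neN' : NeZero N']
  /-- the primes removed from the next Hecke algebra -/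
  S' : Set ℕ
  /-- the next Hecke ring -/
  T' : Type
  [crT' : CommRing T']
  [locT' : IsLocalRing T']
  [algT' : Algebra 𝒪 T']
  [finT' : Module.Finite 𝒪 T']
  [freeT' : Module.Free 𝒪 T']
  π' : heckeAlgebra N' 2 S' →+* T'
  ρT' : GaloisRepAdic T'
  hcp' : ∀ (r : ℕ) (hr : r.Prime) (hrN : ¬ r ∣ N') (hrS : r ∉ S'),
    ∀ A : ValuationSubring (AlgebraicClosure ℚ), A.LiesOverPrime r →
      ∀ σ : GQ, A.IsFrobeniusAt σ r →
        LinearMap.charpoly (ρT'.ρ σ) =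
          X ^ 2 - C (π' (heckeAlgebra.T hr hrN hrS)) * X + C ((r : T'))
  φ' : D'.R →ₐ[𝒪] T'
  hφ' : Function.Surjective φ'
  φ'_local : IsLocalHom (φ' : D'.R →+* T')
  φ'_ρ : (D'.ρ.baseChangeAlong (φ' : D'.R →+* T') φ'_local).IsEquiv ρT'
  /-- the modular point of the next stage -/
  πO' : T' →ₐ[𝒪] 𝒪
  hη' : etaIdeal πO' ≠ ⊥
  /-- a presentation of the next deformation ring -/
  m : ℕ
  γ : MvPowerSeries (Fin m) 𝒪 →ₐ[𝒪] D'.R
  hγ : Function.Surjective γ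
  /-- the two modular points have the same eigenvalues outside `B` -/
  B : Finset ℕ
  hB : ∀ ℓ : ℕ, ℓ.Prime → ℓ ∉ B → ¬ ℓ ∣ Y.rt.N ∧ ℓ ∉ Y.rt.S ∧ ¬ ℓ ∣ N' ∧ ℓ ∉ S'
  heig : ∀ (ℓ : ℕ) (hℓ : ℓ.Prime) (hℓN : ¬ ℓ ∣ Y.rt.N) (hℓS : ℓ ∉ Y.rt.S) (hℓN' : ¬ ℓ ∣ N')
    (hℓS' : ℓ ∉ S'), ℓ ∉ B →
      πO' (π' (heckeAlgebra.T hℓ hℓN' hℓS')) = Y.πO (Y.rt.π (heckeAlgebra.T hℓ hℓN hℓS))
  /-- `q` is prime to the previous level: `a_q` is the eigenvalue of `T_q` -/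
  hqN : ¬ q ∣ Y.rt.N
  hqS : q ∉ Y.rt.S
  /-- a matrix with trace `a_q` (e.g. `!![a_q, 0; 0, 0]`) -/
  f₀ : Matrix (Fin 2) (Fin 2) 𝒪
  hf₀ : f₀.trace = Y.πO (Y.rt.π (heckeAlgebra.T hq hqN hqS))
  hc : wilesFactor f₀ (q : 𝒪) ≠ 0
  /-- `#Ω` of the next stage, (ETA) and (M1) -/
  w' : ℕ
  heta : Y.w * Nat.card (𝒪 ⧸ Ideal.span {wilesFactor f₀ (q : 𝒪)}) ^ d ≤ w'
  hM1 : w' ≤ etaCard πO' ^ d
  /-- the level clauses of the next stage -/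
  hlev : LevelOK p Smin (insert q Sig) N' S'

attribute [instance] StepInputSO.neN' StepInputSO.crT' StepInputSO.locT' StepInputSO.algT'
  StepInputSO.finT' StepInputSO.freeT'

/-- the trace of a Frobenius at `q` at the modular point of `Y` is the eigenvalue of `T_q` -/
theorem trace_frob_point {𝒟 : DefCondE 𝒪} {d : ℕ} (Y : RTNum ρbar 𝒟 d) {q : ℕ} (hq : q.Prime)
    (hqN : ¬ q ∣ Y.rt.N) (hqS : q ∉ Y.rt.S) (P : ValuationSubring Qb) (hP : P.LiesOverPrime q)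
    (φ : GQ) (hφ : P.IsFrobeniusAt φ q) :
    Y.πO (Y.rt.ρT.trace φ) = Y.πO (Y.rt.π (heckeAlgebra.T hq hqN hqS)) := by
  rw [trace_eq_of_charpoly Y.rt.ρT φ _ _ (Y.rt.charpoly_frob q hq hqN hqS P hP φ hφ)]

/-- **the next stage, flat case** -/
noncomputable def StepInputFL.next {d : ℕ} (hd : d ≠ 0) {Sig : Finset ℕ}
    {Y : RTNum ρbar (condFL 𝒪 p Smin Sig) d} {q : ℕ} {hq : q.Prime} (I : StepInputFL Y q hq)
    (hp : p.Prime) (hpq : p ≠ q) (hqS : q ∉ Smin ∪ Sig) (hρbar : ρbar.IsUnramifiedAt q) :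
    RTNum ρbar (condFL 𝒪 p Smin (insert q Sig)) d :=
  have hπO : IsLocalHom (Y.πO : Y.rt.T →+* 𝒪) :=
    Fermat.Agent.GP.Tan.UnivInj.isLocalHom_of_residue_cover residue_cover_self Y.πO
  have hπO' : IsLocalHom (I.πO' : I.T' →+* 𝒪) :=
    Fermat.Agent.GP.Tan.UnivInj.isLocalHom_of_residue_cover residue_cover_self I.πO'
  have hF := Fermat.Agent.Common_helper32.exists_isFrobeniusAt q hq
  nextFL hd Y I.D' I.π' I.ρT' I.hcp' I.φ' I.hφ' I.φ'_local I.φ'_ρ I.πO' I.hη' I.γ I.hγ hπO hπO'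
    (hsame_of_hecke Y I.D' I.π' I.ρT' I.hcp' I.φ' I.φ'_local I.φ'_ρ I.πO' hπO hπO' I.B I.hB I.heig)
    hp hq hpq hqS hρbar hF.choose hF.choose_spec.choose_spec.1
    (φ := hF.choose_spec.choose) hF.choose_spec.choose_spec.2 I.f₀
    (I.hf₀.trans (trace_frob_point Y hq I.hqN I.hqS hF.choose hF.choose_spec.choose_spec.1
      hF.choose_spec.choose hF.choose_spec.choose_spec.2).symm)
    I.hc I.w' I.heta I.hM1

/-- **the next stage, strict-ordinary case** -/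
noncomputable def StepInputSO.next {d : ℕ} (hd : d ≠ 0) {Sig : Finset ℕ}
    {Y : RTNum ρbar (condSO 𝒪 p Smin Sig) d} {q : ℕ} {hq : q.Prime} (I : StepInputSO Y q hq)
    (hp : p.Prime) (hp2 : p ≠ 2) (hpq : p ≠ q) (hqS : q ∉ Smin ∪ Sig)
    (hρbar : ρbar.IsUnramifiedAt q) :
    RTNum ρbar (condSO 𝒪 p Smin (insert q Sig)) d :=
  have hπO : IsLocalHom (Y.πO : Y.rt.T →+* 𝒪) :=
    Fermat.Agent.GP.Tan.UnivInj.isLocalHom_of_residue_cover residue_cover_self Y.πO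
  have hπO' : IsLocalHom (I.πO' : I.T' →+* 𝒪) :=
    Fermat.Agent.GP.Tan.UnivInj.isLocalHom_of_residue_cover residue_cover_self I.πO'
  have hF := Fermat.Agent.Common_helper32.exists_isFrobeniusAt q hq
  nextSO hd Y I.D' I.π' I.ρT' I.hcp' I.φ' I.hφ' I.φ'_local I.φ'_ρ I.πO' I.hη' I.γ I.hγ hπO hπO'
    (hsame_of_hecke Y I.D' I.π' I.ρT' I.hcp' I.φ' I.φ'_local I.φ'_ρ I.πO' hπO hπO' I.B I.hB I.heig)
    hp hp2 hq hpq hqS hρbar hF.choose hF.choose_spec.choose_spec.1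
    (φ := hF.choose_spec.choose) hF.choose_spec.choose_spec.2 I.f₀
    (I.hf₀.trans (trace_frob_point Y hq I.hqN I.hqS hF.choose hF.choose_spec.choose_spec.1
      hF.choose_spec.choose hF.choose_spec.choose_spec.2).symm)
    I.hc I.w' I.heta I.hM1

theorem StepInputFL.next_N {d : ℕ} (hd : d ≠ 0) {Sig : Finset ℕ}
    {Y : RTNum ρbar (condFL 𝒪 p Smin Sig) d} {q : ℕ} {hq : q.Prime} (I : StepInputFL Y q hq)
    (hp : p.Prime) (hpq : p ≠ q) (hqS : q ∉ Smin ∪ Sig) (hρbar : ρbar.IsUnramifiedAt q) :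
    (I.next hd hp hpq hqS hρbar).rt.N = I.N' := rfl

theorem StepInputFL.next_S {d : ℕ} (hd : d ≠ 0) {Sig : Finset ℕ}
    {Y : RTNum ρbar (condFL 𝒪 p Smin Sig) d} {q : ℕ} {hq : q.Prime} (I : StepInputFL Y q hq)
    (hp : p.Prime) (hpq : p ≠ q) (hqS : q ∉ Smin ∪ Sig) (hρbar : ρbar.IsUnramifiedAt q) :
    (I.next hd hp hpq hqS hρbar).rt.S = I.S' := rfl

theorem StepInputSO.next_N {d : ℕ} (hd : d ≠ 0) {Sig : Finset ℕ}
    {Y : RTNum ρbar (condSO 𝒪 p Smin Sig) d} {q : ℕ} {hq : q.Prime} (I : StepInputSO Y q hq)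
    (hp : p.Prime) (hp2 : p ≠ 2) (hpq : p ≠ q) (hqS : q ∉ Smin ∪ Sig)
    (hρbar : ρbar.IsUnramifiedAt q) :
    (I.next hd hp hp2 hpq hqS hρbar).rt.N = I.N' := rfl

theorem StepInputSO.next_S {d : ℕ} (hd : d ≠ 0) {Sig : Finset ℕ}
    {Y : RTNum ρbar (condSO 𝒪 p Smin Sig) d} {q : ℕ} {hq : q.Prime} (I : StepInputSO Y q hq)
    (hp : p.Prime) (hp2 : p ≠ 2) (hpq : p ≠ q) (hqS : q ∉ Smin ∪ Sig)
    (hρbar : ρbar.IsUnramifiedAt q) :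
    (I.next hd hp hp2 hpq hqS hρbar).rt.S = I.S' := rfl

end Records

/-! ### the induction over `Σ` -/

section Induction

variable {𝒪 : Type} [CommRing 𝒪] [IsDomain 𝒪] [IsDiscreteValuationRing 𝒪]
  [IsAdicComplete (maximalIdeal 𝒪) 𝒪] [Finite (ResidueField 𝒪)]
  {ρbar : ResidualGaloisRep (ResidueField 𝒪)} {p : ℕ} {Smin : Finset ℕ}

/-- **E9, flat case**: from the minimal stage `Σ = ∅` to `Σ = Sig`, one `StepInputFL` per added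
prime. -/
theorem exists_rtNum_condFL {d : ℕ} (hd : d ≠ 0) (hp : p.Prime) (Sig : Finset ℕ)
    (hSig : ∀ q ∈ Sig, q.Prime ∧ p ≠ q ∧ q ∉ Smin ∧ ρbar.IsUnramifiedAt q)
    (Y₀ : RTNum ρbar (condFL 𝒪 p Smin ∅) d) (h₀ : LevelOK p Smin ∅ Y₀.rt.N Y₀.rt.S)
    (step : ∀ Sg : Finset ℕ, Sg ⊆ Sig → ∀ (q : ℕ) (hq : q.Prime), q ∈ Sig → q ∉ Sg →
      ∀ Y : RTNum ρbar (condFL 𝒪 p Smin Sg) d, LevelOK p Smin Sg Y.rt.N Y.rt.S →
        Nonempty (StepInputFL Y q hq)) :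
    ∃ Y : RTNum ρbar (condFL 𝒪 p Smin Sig) d, LevelOK p Smin Sig Y.rt.N Y.rt.S := by
  suffices h : ∀ Sg : Finset ℕ, Sg ⊆ Sig →
      ∃ Y : RTNum ρbar (condFL 𝒪 p Smin Sg) d, LevelOK p Smin Sg Y.rt.N Y.rt.S from
    h Sig subset_rfl
  intro Sg
  induction Sg using Finset.induction_on with
  | empty => exact fun _ => ⟨Y₀, h₀⟩
  | insert q Sg hqSg ih =>
    intro hsub
    have hqSig : q ∈ Sig := hsub (Finset.mem_insert_self q Sg)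
    have hSg : Sg ⊆ Sig := fun x hx => hsub (Finset.mem_insert_of_mem hx)
    obtain ⟨Y, hY⟩ := ih hSg
    obtain ⟨hq, hpq, hqSmin, hρ⟩ := hSig q hqSig
    obtain ⟨I⟩ := step Sg hSg q hq hqSig hqSg Y hY
    have hqS : q ∉ Smin ∪ Sg := fun h =>
      (Finset.mem_union.mp h).elim hqSmin hqSg
    exact ⟨I.next hd hp hpq hqS hρ, I.hlev⟩

/-- **E9, strict-ordinary case.** -/
theorem exists_rtNum_condSO {d : ℕ} (hd : d ≠ 0) (hp : p.Prime) (hp2 : p ≠ 2) (Sig : Finset ℕ)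
    (hSig : ∀ q ∈ Sig, q.Prime ∧ p ≠ q ∧ q ∉ Smin ∧ ρbar.IsUnramifiedAt q)
    (Y₀ : RTNum ρbar (condSO 𝒪 p Smin ∅) d) (h₀ : LevelOK p Smin ∅ Y₀.rt.N Y₀.rt.S)
    (step : ∀ Sg : Finset ℕ, Sg ⊆ Sig → ∀ (q : ℕ) (hq : q.Prime), q ∈ Sig → q ∉ Sg →
      ∀ Y : RTNum ρbar (condSO 𝒪 p Smin Sg) d, LevelOK p Smin Sg Y.rt.N Y.rt.S →
        Nonempty (StepInputSO Y q hq)) :
    ∃ Y : RTNum ρbar (condSO 𝒪 p Smin Sig) d, LevelOK p Smin Sig Y.rt.N Y.rt.S := by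
  suffices h : ∀ Sg : Finset ℕ, Sg ⊆ Sig →
      ∃ Y : RTNum ρbar (condSO 𝒪 p Smin Sg) d, LevelOK p Smin Sg Y.rt.N Y.rt.S from
    h Sig subset_rfl
  intro Sg
  induction Sg using Finset.induction_on with
  | empty => exact fun _ => ⟨Y₀, h₀⟩
  | insert q Sg hqSg ih =>
    intro hsub
    have hqSig : q ∈ Sig := hsub (Finset.mem_insert_self q Sg)
    have hSg : Sg ⊆ Sig := fun x hx => hsub (Finset.mem_insert_of_mem hx)
    obtain ⟨Y, hY⟩ := ih hSg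
    obtain ⟨hq, hpq, hqSmin, hρ⟩ := hSig q hqSig
    obtain ⟨I⟩ := step Sg hSg q hq hqSig hqSg Y hY
    have hqS : q ∉ Smin ∪ Sg := fun h =>
      (Finset.mem_union.mp h).elim hqSmin hqSg
    exact ⟨I.next hd hp hp2 hpq hqS hρ, I.hlev⟩

/-- the last `∃ X' : RTData …` of `RTConcl`, flat case -/
theorem exists_rtData_condFL {d : ℕ} (hd : d ≠ 0) (hp : p.Prime) (Sig : Finset ℕ)
    (hSig : ∀ q ∈ Sig, q.Prime ∧ p ≠ q ∧ q ∉ Smin ∧ ρbar.IsUnramifiedAt q)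
    (Y₀ : RTNum ρbar (condFL 𝒪 p Smin ∅) d) (h₀ : LevelOK p Smin ∅ Y₀.rt.N Y₀.rt.S)
    (step : ∀ Sg : Finset ℕ, Sg ⊆ Sig → ∀ (q : ℕ) (hq : q.Prime), q ∈ Sig → q ∉ Sg →
      ∀ Y : RTNum ρbar (condFL 𝒪 p Smin Sg) d, LevelOK p Smin Sg Y.rt.N Y.rt.S →
        Nonempty (StepInputFL Y q hq)) :
    ∃ X' : RTData ρbar (condFL 𝒪 p Smin Sig),
      ¬ p ^ 2 ∣ X'.N ∧ (∀ q : ℕ, q.Prime → ¬ q ^ 3 ∣ X'.N) ∧
      (∀ q ∈ Smin ∪ Sig, q ≠ p → q ∣ X'.N) ∧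
      (∀ ℓ ∈ X'.S, ℓ.Prime → ℓ ∣ X'.N ∨ ℓ = p) := by
  obtain ⟨Y, hY⟩ := exists_rtNum_condFL hd hp Sig hSig Y₀ h₀ step
  exact ⟨Y.rt, hY⟩

/-- the last `∃ X' : RTData …` of `RTConcl`, strict-ordinary case -/
theorem exists_rtData_condSO {d : ℕ} (hd : d ≠ 0) (hp : p.Prime) (hp2 : p ≠ 2)
    (Sig : Finset ℕ)
    (hSig : ∀ q ∈ Sig, q.Prime ∧ p ≠ q ∧ q ∉ Smin ∧ ρbar.IsUnramifiedAt q)
    (Y₀ : RTNum ρbar (condSO 𝒪 p Smin ∅) d) (h₀ : LevelOK p Smin ∅ Y₀.rt.N Y₀.rt.S)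
    (step : ∀ Sg : Finset ℕ, Sg ⊆ Sig → ∀ (q : ℕ) (hq : q.Prime), q ∈ Sig → q ∉ Sg →
      ∀ Y : RTNum ρbar (condSO 𝒪 p Smin Sg) d, LevelOK p Smin Sg Y.rt.N Y.rt.S →
        Nonempty (StepInputSO Y q hq)) :
    ∃ X' : RTData ρbar (condSO 𝒪 p Smin Sig),
      ¬ p ^ 2 ∣ X'.N ∧ (∀ q : ℕ, q.Prime → ¬ q ^ 3 ∣ X'.N) ∧
      (∀ q ∈ Smin ∪ Sig, q ≠ p → q ∣ X'.N) ∧
      (∀ ℓ ∈ X'.S, ℓ.Prime → ℓ ∣ X'.N ∨ ℓ = p) := by
  obtain ⟨Y, hY⟩ := exists_rtNum_condSO hd hp hp2 Sig hSig Y₀ h₀ step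
  exact ⟨Y.rt, hY⟩

end Induction

end Fermat.Agent.GE9.Asm
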