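/-
GATE-E / GE9-ASM (helper73), file 2: **the induction over `Σ` of E9 in the CONSTANT-`S` convention**
(RULING A6.1 §3 of helper10, request 7239).  `Chain.lean` is FROZEN; this file is its twin with

* `LevelOK' p Smin Sig₀ Sg N S` : the level clauses with the 4th one relaxed to
  `ℓ ∣ N ∨ ℓ = p ∨ ℓ ∈ Sig₀` (`Sig₀` FIXED through the induction: the Hecke set is the constant
  `S0 = primes(N_∅) ∪ {p} ∪ Sig₀` at every stage); `LevelOK'.levelOK` : at `Sg = Sig₀` it is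
  `LevelOK` = the tail of `RTConcl` VERBATIM;
* `StepInputFL' Sig₀ Y q hq`, `StepInputSO' Sig₀ Y q hq` : the step record WITHOUT `hqN`, `hqS`
  (in the constant-`S` convention `q ∈ S0`, there is no `T_q` in the stage algebra): `a_q` enters as
  `hf₀ : f₀.trace = Y.πO (Y.rt.ρT.trace φq)` for a Frobenius `(Pq, φq)` at `q` carried as fields
  (= the NATIVE binder of `CotGrowth.nextFL`); `S'` stays a free field (the instance takes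
  `S' = Y.rt.S`); all other fields are those of `Chain.StepInputFL` with the SAME names;
* `pointChar Y = Y.πO ∘ Y.rt.π` : the eigensystem of the modular point of a stage;
* a free **invariant** `Inv Sg N S χ w` on `(Σ, level, Hecke set, point eigensystem, #Ω)` is carried
  through the induction (helper11 7274: `hNT`, `hSminN'`, `Y.rt.S = ↑S0`, `χ(T_ℓ) = a_ℓ`,
  `w = #Ω(L_Σ)` …): `exists_rtNum_condFL'`, `exists_rtNum_condSO'`;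
  `exists_rtNum_condFL_inv` / `…SO_inv` : the same with an invariant on the whole `RTNum`;
* `exists_rtData_condFL'`, `exists_rtData_condSO'` : the last `∃ X' : RTData …` of `RTConcl`.
-/
import Mathlib
import Fermat.Agent.GE9.Asm.Chain

set_option autoImplicit false
set_option linter.unusedSectionVars false
set_option linter.style.haveILetI false

namespace Fermat.Agent.GE9.Asm

open IsLocalRing Module Matrix Function Polynomial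
open Fermat.Agent.Common_helper32 Fermat.Agent.GE.Graph Fermat.Agent.GE9.Ind CuspForm
  Fermat.Agent.GE9.TanGrow Fermat.Agent.GE9.CotGrowth Fermat.Agent.GE9.NumCrit

/-- **the level clauses in the constant-`S` convention**: `Sig₀` is the FINAL `Σ`, `Sg` the current
one; the primes of `S` divide `N`, or are `p`, or lie in `Sig₀`. -/
def LevelOK' (p : ℕ) (Smin Sig₀ Sg : Finset ℕ) (N : ℕ) (S : Set ℕ) : Prop :=
  ¬ p ^ 2 ∣ N ∧ (∀ q : ℕ, q.Prime → ¬ q ^ 3 ∣ N) ∧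
    (∀ q ∈ Smin ∪ Sg, q ≠ p → q ∣ N) ∧ (∀ ℓ ∈ S, ℓ.Prime → ℓ ∣ N ∨ ℓ = p ∨ ℓ ∈ Sig₀)

/-- at the last stage `Sg = Sig₀` the relaxed clauses are the clauses of `RTConcl` VERBATIM -/
theorem LevelOK'.levelOK {p : ℕ} {Smin Sig₀ : Finset ℕ} {N : ℕ} {S : Set ℕ}
    (h : LevelOK' p Smin Sig₀ Sig₀ N S) : LevelOK p Smin Sig₀ N S := by
  obtain ⟨h1, h2, h3, h4⟩ := h
  refine ⟨h1, h2, h3, fun ℓ hℓS hℓ => ?_⟩
  rcases h4 ℓ hℓS hℓ with h | h | h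
  · exact Or.inl h
  · exact Or.inr h
  · by_cases hℓp : ℓ = p
    · exact Or.inr hℓp
    · exact Or.inl (h3 ℓ (Finset.mem_union_right _ h) hℓp)

/-- the clauses of `Chain.LevelOK` imply the relaxed ones -/
theorem LevelOK.levelOK' {p : ℕ} {Smin Sg : Finset ℕ} {N : ℕ} {S : Set ℕ}
    (h : LevelOK p Smin Sg N S) (Sig₀ : Finset ℕ) : LevelOK' p Smin Sig₀ Sg N S := by
  obtain ⟨h1, h2, h3, h4⟩ := h
  refine ⟨h1, h2, h3, fun ℓ hℓS hℓ => ?_⟩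
  rcases h4 ℓ hℓS hℓ with h | h
  · exact Or.inl h
  · exact Or.inr (Or.inl h)

section Records

variable {𝒪 : Type} [CommRing 𝒪] [IsDomain 𝒪] [IsDiscreteValuationRing 𝒪]
  [IsAdicComplete (maximalIdeal 𝒪) 𝒪] [Finite (ResidueField 𝒪)]
  {ρbar : ResidualGaloisRep (ResidueField 𝒪)} {p : ℕ} {Smin : Finset ℕ}

/-- the eigensystem of the modular point of a stage -/
noncomputable def pointChar {𝒟 : DefCondE 𝒪} {d : ℕ} (Y : RTNum ρbar 𝒟 d) :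
    heckeAlgebra Y.rt.N 2 Y.rt.S →+* 𝒪 :=
  (Y.πO : Y.rt.T →+* 𝒪).comp Y.rt.π

theorem pointChar_apply {𝒟 : DefCondE 𝒪} {d : ℕ} (Y : RTNum ρbar 𝒟 d)
    (t : heckeAlgebra Y.rt.N 2 Y.rt.S) : pointChar Y t = Y.πO (Y.rt.π t) := rfl

/-- **The E9-INST contract, flat case, constant-`S` convention**: what the Hecke side delivers to
add the prime `q` to `Σ = Sig` (`Sig₀` = the final `Σ`).  (GROWTH) is not a field. -/
structure StepInputFL' (Sig₀ : Finset ℕ) {d : ℕ} {Sig : Finset ℕ}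
    (Y : RTNum ρbar (condFL 𝒪 p Smin Sig) d) (q : ℕ) (hq : q.Prime) : Type 1 where
  /-- the deformation ring of the next stage -/
  D' : GaloisRep.DeformationRingData 𝒪 ρbar (condFL 𝒪 p Smin (insert q Sig))
  /-- the next level -/
  N' : ℕ
  [neN' : NeZero N']
  /-- the primes removed from the next Hecke algebra (the instance: `S' = Y.rt.S = ↑S0`) -/
  S' : Set ℕ
  /-- the next Hecke ring -/
  T' : Type
  [crT' : CommRing T']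
  [locT' : IsLocalRing T']
  [algT' : Algebra 𝒪 T']
  [finT' : Module.Finite 𝒪 T']
  [freeT' : Module.Free 𝒪 T']
  π' : heckeAlgebra N' 2 S' →+* T'
  ρT' : GaloisRepAdic T'
  hcp' : ∀ (r : ℕ) (hr : r.Prime) (hrN : ¬ r ∣ N') (hrS : r ∉ S'),
    ∀ A : ValuationSubring (AlgebraicClosure ℚ), A.LiesOverPrime r →
      ∀ σ : GQ, A.IsFrobeniusAt σ r →
        LinearMap.charpoly (ρT'.ρ σ) =
          X ^ 2 - C (π' (heckeAlgebra.T hr hrN hrS)) * X + C ((r : T'))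
  φ' : D'.R →ₐ[𝒪] T'
  hφ' : Function.Surjective φ'
  φ'_local : IsLocalHom (φ' : D'.R →+* T')
  φ'_ρ : (D'.ρ.baseChangeAlong (φ' : D'.R →+* T') φ'_local).IsEquiv ρT'
  /-- the modular point of the next stage -/
  πO' : T' →ₐ[𝒪] 𝒪
  hη' : etaIdeal πO' ≠ ⊥
  /-- a presentation of the next deformation ring -/
  m : ℕ
  γ : MvPowerSeries (Fin m) 𝒪 →ₐ[𝒪] D'.R
  hγ : Function.Surjective γ
  /-- the two modular points have the same eigenvalues outside `B` (the instance: `B ⊇ S0`) -/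
  B : Finset ℕ
  hB : ∀ ℓ : ℕ, ℓ.Prime → ℓ ∉ B → ¬ ℓ ∣ Y.rt.N ∧ ℓ ∉ Y.rt.S ∧ ¬ ℓ ∣ N' ∧ ℓ ∉ S'
  heig : ∀ (ℓ : ℕ) (hℓ : ℓ.Prime) (hℓN : ¬ ℓ ∣ Y.rt.N) (hℓS : ℓ ∉ Y.rt.S) (hℓN' : ¬ ℓ ∣ N')
    (hℓS' : ℓ ∉ S'), ℓ ∉ B →
      πO' (π' (heckeAlgebra.T hℓ hℓN' hℓS')) = Y.πO (Y.rt.π (heckeAlgebra.T hℓ hℓN hℓS))
  /-- a Frobenius at `q` -/
  Pq : ValuationSubring Qb
  hPq : Pq.LiesOverPrime q
  φq : GQ
  hφq : Pq.IsFrobeniusAt φq q
  /-- a matrix with trace `a_q = tr ρ_f(Frob_q)` (e.g. `!![a_q, 0; 0, 0]`) -/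
  f₀ : Matrix (Fin 2) (Fin 2) 𝒪
  hf₀ : f₀.trace = Y.πO (Y.rt.ρT.trace φq)
  hc : wilesFactor f₀ (q : 𝒪) ≠ 0
  /-- `#Ω` of the next stage, (ETA) and (M1) -/
  w' : ℕ
  heta : Y.w * Nat.card (𝒪 ⧸ Ideal.span {wilesFactor f₀ (q : 𝒪)}) ^ d ≤ w'
  hM1 : w' ≤ etaCard πO' ^ d
  /-- the level clauses of the next stage -/
  hlev : LevelOK' p Smin Sig₀ (insert q Sig) N' S'

attribute [instance] StepInputFL'.neN' StepInputFL'.crT' StepInputFL'.locT' StepInputFL'.algT'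
  StepInputFL'.finT' StepInputFL'.freeT'

/-- **The E9-INST contract, strict-ordinary case, constant-`S` convention.** -/
structure StepInputSO' (Sig₀ : Finset ℕ) {d : ℕ} {Sig : Finset ℕ}
    (Y : RTNum ρbar (condSO 𝒪 p Smin Sig) d) (q : ℕ) (hq : q.Prime) : Type 1 where
  /-- the deformation ring of the next stage -/
  D' : GaloisRep.DeformationRingData 𝒪 ρbar (condSO 𝒪 p Smin (insert q Sig))
  /-- the next level -/
  N' : ℕ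
  [neN' : NeZero N']
  /-- the primes removed from the next Hecke algebra (the instance: `S' = Y.rt.S = ↑S0`) -/
  S' : Set ℕ
  /-- the next Hecke ring -/
  T' : Type
  [crT' : CommRing T']
  [locT' : IsLocalRing T']
  [algT' : Algebra 𝒪 T']
  [finT' : Module.Finite 𝒪 T']
  [freeT' : Module.Free 𝒪 T']
  π' : heckeAlgebra N' 2 S' →+* T'
  ρT' : GaloisRepAdic T'
  hcp' : ∀ (r : ℕ) (hr : r.Prime) (hrN : ¬ r ∣ N') (hrS : r ∉ S'),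
    ∀ A : ValuationSubring (AlgebraicClosure ℚ), A.LiesOverPrime r →
      ∀ σ : GQ, A.IsFrobeniusAt σ r →
        LinearMap.charpoly (ρT'.ρ σ) =
          X ^ 2 - C (π' (heckeAlgebra.T hr hrN hrS)) * X + C ((r : T'))
  φ' : D'.R →ₐ[𝒪] T'
  hφ' : Function.Surjective φ'
  φ'_local : IsLocalHom (φ' : D'.R →+* T')
  φ'_ρ : (D'.ρ.baseChangeAlong (φ' : D'.R →+* T') φ'_local).IsEquiv ρT'
  /-- the modular point of the next stage -/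
  πO' : T' →ₐ[𝒪] 𝒪
  hη' : etaIdeal πO' ≠ ⊥
  /-- a presentation of the next deformation ring -/
  m : ℕ
  γ : MvPowerSeries (Fin m) 𝒪 →ₐ[𝒪] D'.R
  hγ : Function.Surjective γ
  /-- the two modular points have the same eigenvalues outside `B` (the instance: `B ⊇ S0`) -/
  B : Finset ℕ
  hB : ∀ ℓ : ℕ, ℓ.Prime → ℓ ∉ B → ¬ ℓ ∣ Y.rt.N ∧ ℓ ∉ Y.rt.S ∧ ¬ ℓ ∣ N' ∧ ℓ ∉ S'
  heig : ∀ (ℓ : ℕ) (hℓ : ℓ.Prime) (hℓN : ¬ ℓ ∣ Y.rt.N) (hℓS : ℓ ∉ Y.rt.S) (hℓN' : ¬ ℓ ∣ N')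
    (hℓS' : ℓ ∉ S'), ℓ ∉ B →
      πO' (π' (heckeAlgebra.T hℓ hℓN' hℓS')) = Y.πO (Y.rt.π (heckeAlgebra.T hℓ hℓN hℓS))
  /-- a Frobenius at `q` -/
  Pq : ValuationSubring Qb
  hPq : Pq.LiesOverPrime q
  φq : GQ
  hφq : Pq.IsFrobeniusAt φq q
  /-- a matrix with trace `a_q = tr ρ_f(Frob_q)` (e.g. `!![a_q, 0; 0, 0]`) -/
  f₀ : Matrix (Fin 2) (Fin 2) 𝒪
  hf₀ : f₀.trace = Y.πO (Y.rt.ρT.trace φq)
  hc : wilesFactor f₀ (q : 𝒪) ≠ 0
  /-- `#Ω` of the next stage, (ETA) and (M1) -/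
  w' : ℕ
  heta : Y.w * Nat.card (𝒪 ⧸ Ideal.span {wilesFactor f₀ (q : 𝒪)}) ^ d ≤ w'
  hM1 : w' ≤ etaCard πO' ^ d
  /-- the level clauses of the next stage -/
  hlev : LevelOK' p Smin Sig₀ (insert q Sig) N' S'

attribute [instance] StepInputSO'.neN' StepInputSO'.crT' StepInputSO'.locT' StepInputSO'.algT'
  StepInputSO'.finT' StepInputSO'.freeT'

/-- the eigensystem of the modular point of the next stage -/
noncomputable def StepInputFL'.pointChar' {Sig₀ : Finset ℕ} {d : ℕ} {Sig : Finset ℕ}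
    {Y : RTNum ρbar (condFL 𝒪 p Smin Sig) d} {q : ℕ} {hq : q.Prime}
    (I : StepInputFL' Sig₀ Y q hq) : heckeAlgebra I.N' 2 I.S' →+* 𝒪 :=
  (I.πO' : I.T' →+* 𝒪).comp I.π'

/-- the eigensystem of the modular point of the next stage -/
noncomputable def StepInputSO'.pointChar' {Sig₀ : Finset ℕ} {d : ℕ} {Sig : Finset ℕ}
    {Y : RTNum ρbar (condSO 𝒪 p Smin Sig) d} {q : ℕ} {hq : q.Prime}
    (I : StepInputSO' Sig₀ Y q hq) : heckeAlgebra I.N' 2 I.S' →+* 𝒪 :=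
  (I.πO' : I.T' →+* 𝒪).comp I.π'

theorem StepInputFL'.pointChar'_apply {Sig₀ : Finset ℕ} {d : ℕ} {Sig : Finset ℕ}
    {Y : RTNum ρbar (condFL 𝒪 p Smin Sig) d} {q : ℕ} {hq : q.Prime}
    (I : StepInputFL' Sig₀ Y q hq) (t : heckeAlgebra I.N' 2 I.S') :
    I.pointChar' t = I.πO' (I.π' t) := rfl

theorem StepInputSO'.pointChar'_apply {Sig₀ : Finset ℕ} {d : ℕ} {Sig : Finset ℕ}
    {Y : RTNum ρbar (condSO 𝒪 p Smin Sig) d} {q : ℕ} {hq : q.Prime}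
    (I : StepInputSO' Sig₀ Y q hq) (t : heckeAlgebra I.N' 2 I.S') :
    I.pointChar' t = I.πO' (I.π' t) := rfl

/-- **the next stage, flat case** -/
noncomputable def StepInputFL'.next {d : ℕ} (hd : d ≠ 0) {Sig₀ Sig : Finset ℕ}
    {Y : RTNum ρbar (condFL 𝒪 p Smin Sig) d} {q : ℕ} {hq : q.Prime}
    (I : StepInputFL' Sig₀ Y q hq)
    (hp : p.Prime) (hpq : p ≠ q) (hqS : q ∉ Smin ∪ Sig) (hρbar : ρbar.IsUnramifiedAt q) :
    RTNum ρbar (condFL 𝒪 p Smin (insert q Sig)) d :=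
  have hπO : IsLocalHom (Y.πO : Y.rt.T →+* 𝒪) :=
    Fermat.Agent.GP.Tan.UnivInj.isLocalHom_of_residue_cover residue_cover_self Y.πO
  have hπO' : IsLocalHom (I.πO' : I.T' →+* 𝒪) :=
    Fermat.Agent.GP.Tan.UnivInj.isLocalHom_of_residue_cover residue_cover_self I.πO'
  nextFL hd Y I.D' I.π' I.ρT' I.hcp' I.φ' I.hφ' I.φ'_local I.φ'_ρ I.πO' I.hη' I.γ I.hγ hπO hπO'
    (hsame_of_hecke Y I.D' I.π' I.ρT' I.hcp' I.φ' I.φ'_local I.φ'_ρ I.πO' hπO hπO' I.B I.hB I.heig)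
    hp hq hpq hqS hρbar I.Pq I.hPq (φ := I.φq) I.hφq I.f₀ I.hf₀ I.hc I.w' I.heta I.hM1

/-- **the next stage, strict-ordinary case** -/
noncomputable def StepInputSO'.next {d : ℕ} (hd : d ≠ 0) {Sig₀ Sig : Finset ℕ}
    {Y : RTNum ρbar (condSO 𝒪 p Smin Sig) d} {q : ℕ} {hq : q.Prime}
    (I : StepInputSO' Sig₀ Y q hq)
    (hp : p.Prime) (hp2 : p ≠ 2) (hpq : p ≠ q) (hqS : q ∉ Smin ∪ Sig)
    (hρbar : ρbar.IsUnramifiedAt q) :
    RTNum ρbar (condSO 𝒪 p Smin (insert q Sig)) d :=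
  have hπO : IsLocalHom (Y.πO : Y.rt.T →+* 𝒪) :=
    Fermat.Agent.GP.Tan.UnivInj.isLocalHom_of_residue_cover residue_cover_self Y.πO
  have hπO' : IsLocalHom (I.πO' : I.T' →+* 𝒪) :=
    Fermat.Agent.GP.Tan.UnivInj.isLocalHom_of_residue_cover residue_cover_self I.πO'
  nextSO hd Y I.D' I.π' I.ρT' I.hcp' I.φ' I.hφ' I.φ'_local I.φ'_ρ I.πO' I.hη' I.γ I.hγ hπO hπO'
    (hsame_of_hecke Y I.D' I.π' I.ρT' I.hcp' I.φ' I.φ'_local I.φ'_ρ I.πO' hπO hπO' I.B I.hB I.heig)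
    hp hp2 hq hpq hqS hρbar I.Pq I.hPq (φ := I.φq) I.hφq I.f₀ I.hf₀ I.hc I.w' I.heta I.hM1

section NextProj

variable {d : ℕ} (hd : d ≠ 0) {Sig₀ Sig : Finset ℕ}

theorem StepInputFL'.next_N {Y : RTNum ρbar (condFL 𝒪 p Smin Sig) d} {q : ℕ} {hq : q.Prime}
    (I : StepInputFL' Sig₀ Y q hq) (hp : p.Prime) (hpq : p ≠ q) (hqS : q ∉ Smin ∪ Sig)
    (hρbar : ρbar.IsUnramifiedAt q) : (I.next hd hp hpq hqS hρbar).rt.N = I.N' := rfl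

theorem StepInputFL'.next_S {Y : RTNum ρbar (condFL 𝒪 p Smin Sig) d} {q : ℕ} {hq : q.Prime}
    (I : StepInputFL' Sig₀ Y q hq) (hp : p.Prime) (hpq : p ≠ q) (hqS : q ∉ Smin ∪ Sig)
    (hρbar : ρbar.IsUnramifiedAt q) : (I.next hd hp hpq hqS hρbar).rt.S = I.S' := rfl

theorem StepInputFL'.next_w {Y : RTNum ρbar (condFL 𝒪 p Smin Sig) d} {q : ℕ} {hq : q.Prime}
    (I : StepInputFL' Sig₀ Y q hq) (hp : p.Prime) (hpq : p ≠ q) (hqS : q ∉ Smin ∪ Sig)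
    (hρbar : ρbar.IsUnramifiedAt q) : (I.next hd hp hpq hqS hρbar).w = I.w' := rfl

theorem StepInputFL'.next_pointChar {Y : RTNum ρbar (condFL 𝒪 p Smin Sig) d} {q : ℕ}
    {hq : q.Prime} (I : StepInputFL' Sig₀ Y q hq) (hp : p.Prime) (hpq : p ≠ q)
    (hqS : q ∉ Smin ∪ Sig) (hρbar : ρbar.IsUnramifiedAt q) :
    pointChar (I.next hd hp hpq hqS hρbar) = I.pointChar' := rfl

theorem StepInputSO'.next_N {Y : RTNum ρbar (condSO 𝒪 p Smin Sig) d} {q : ℕ} {hq : q.Prime}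
    (I : StepInputSO' Sig₀ Y q hq) (hp : p.Prime) (hp2 : p ≠ 2) (hpq : p ≠ q)
    (hqS : q ∉ Smin ∪ Sig) (hρbar : ρbar.IsUnramifiedAt q) :
    (I.next hd hp hp2 hpq hqS hρbar).rt.N = I.N' := rfl

theorem StepInputSO'.next_S {Y : RTNum ρbar (condSO 𝒪 p Smin Sig) d} {q : ℕ} {hq : q.Prime}
    (I : StepInputSO' Sig₀ Y q hq) (hp : p.Prime) (hp2 : p ≠ 2) (hpq : p ≠ q)
    (hqS : q ∉ Smin ∪ Sig) (hρbar : ρbar.IsUnramifiedAt q) :
    (I.next hd hp hp2 hpq hqS hρbar).rt.S = I.S' := rfl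

theorem StepInputSO'.next_w {Y : RTNum ρbar (condSO 𝒪 p Smin Sig) d} {q : ℕ} {hq : q.Prime}
    (I : StepInputSO' Sig₀ Y q hq) (hp : p.Prime) (hp2 : p ≠ 2) (hpq : p ≠ q)
    (hqS : q ∉ Smin ∪ Sig) (hρbar : ρbar.IsUnramifiedAt q) :
    (I.next hd hp hp2 hpq hqS hρbar).w = I.w' := rfl

theorem StepInputSO'.next_pointChar {Y : RTNum ρbar (condSO 𝒪 p Smin Sig) d} {q : ℕ}
    {hq : q.Prime} (I : StepInputSO' Sig₀ Y q hq) (hp : p.Prime) (hp2 : p ≠ 2) (hpq : p ≠ q)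
    (hqS : q ∉ Smin ∪ Sig) (hρbar : ρbar.IsUnramifiedAt q) :
    pointChar (I.next hd hp hp2 hpq hqS hρbar) = I.pointChar' := rfl

end NextProj

/-- a record of `Chain.lean` (with `T_q` in the stage algebra) is a record of this file -/
noncomputable def StepInputFL.toStep' {d : ℕ} {Sig : Finset ℕ}
    {Y : RTNum ρbar (condFL 𝒪 p Smin Sig) d} {q : ℕ} {hq : q.Prime} (I : StepInputFL Y q hq)
    (Sig₀ : Finset ℕ) : StepInputFL' Sig₀ Y q hq :=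
  have hF := Fermat.Agent.Common_helper32.exists_isFrobeniusAt q hq
  { D' := I.D', N' := I.N', S' := I.S', T' := I.T', π' := I.π', ρT' := I.ρT', hcp' := I.hcp'
    φ' := I.φ', hφ' := I.hφ', φ'_local := I.φ'_local, φ'_ρ := I.φ'_ρ, πO' := I.πO', hη' := I.hη'
    m := I.m, γ := I.γ, hγ := I.hγ, B := I.B, hB := I.hB, heig := I.heig
    Pq := hF.choose, hPq := hF.choose_spec.choose_spec.1
    φq := hF.choose_spec.choose, hφq := hF.choose_spec.choose_spec.2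
    f₀ := I.f₀
    hf₀ := I.hf₀.trans (trace_frob_point Y hq I.hqN I.hqS hF.choose hF.choose_spec.choose_spec.1
      hF.choose_spec.choose hF.choose_spec.choose_spec.2).symm
    hc := I.hc, w' := I.w', heta := I.heta, hM1 := I.hM1, hlev := I.hlev.levelOK' Sig₀ }

/-- a record of `Chain.lean` (with `T_q` in the stage algebra) is a record of this file -/
noncomputable def StepInputSO.toStep' {d : ℕ} {Sig : Finset ℕ}
    {Y : RTNum ρbar (condSO 𝒪 p Smin Sig) d} {q : ℕ} {hq : q.Prime} (I : StepInputSO Y q hq)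
    (Sig₀ : Finset ℕ) : StepInputSO' Sig₀ Y q hq :=
  have hF := Fermat.Agent.Common_helper32.exists_isFrobeniusAt q hq
  { D' := I.D', N' := I.N', S' := I.S', T' := I.T', π' := I.π', ρT' := I.ρT', hcp' := I.hcp'
    φ' := I.φ', hφ' := I.hφ', φ'_local := I.φ'_local, φ'_ρ := I.φ'_ρ, πO' := I.πO', hη' := I.hη'
    m := I.m, γ := I.γ, hγ := I.hγ, B := I.B, hB := I.hB, heig := I.heig
    Pq := hF.choose, hPq := hF.choose_spec.choose_spec.1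
    φq := hF.choose_spec.choose, hφq := hF.choose_spec.choose_spec.2
    f₀ := I.f₀
    hf₀ := I.hf₀.trans (trace_frob_point Y hq I.hqN I.hqS hF.choose hF.choose_spec.choose_spec.1
      hF.choose_spec.choose hF.choose_spec.choose_spec.2).symm
    hc := I.hc, w' := I.w', heta := I.heta, hM1 := I.hM1, hlev := I.hlev.levelOK' Sig₀ }

end Records

/-! ### the induction over `Σ` -/

section Induction

variable {𝒪 : Type} [CommRing 𝒪] [IsDomain 𝒪] [IsDiscreteValuationRing 𝒪]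
  [IsAdicComplete (maximalIdeal 𝒪) 𝒪] [Finite (ResidueField 𝒪)]
  {ρbar : ResidualGaloisRep (ResidueField 𝒪)} {p : ℕ} {Smin : Finset ℕ}

/-- **E9, flat case, with an invariant on the whole stage**: from `Σ = ∅` to `Σ = Sig`, one
`StepInputFL'` per added prime; `Inv` is ANY property of the stages which the step supplier
propagates (it sees the next stage as `I.next …`; its `rt.N`, `rt.S`, `w`, `pointChar` are
`I.N'`, `I.S'`, `I.w'`, `I.pointChar'` by `rfl`). -/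
theorem exists_rtNum_condFL_inv {d : ℕ} (hd : d ≠ 0) (hp : p.Prime) (Sig : Finset ℕ)
    (hSig : ∀ q ∈ Sig, q.Prime ∧ p ≠ q ∧ q ∉ Smin ∧ ρbar.IsUnramifiedAt q)
    (Inv : ∀ Sg : Finset ℕ, RTNum ρbar (condFL 𝒪 p Smin Sg) d → Prop)
    (Y₀ : RTNum ρbar (condFL 𝒪 p Smin ∅) d) (h₀ : Inv ∅ Y₀)
    (step : ∀ Sg : Finset ℕ, Sg ⊆ Sig → ∀ (q : ℕ) (hq : q.Prime), q ∈ Sig → q ∉ Sg →
      ∀ Y : RTNum ρbar (condFL 𝒪 p Smin Sg) d, Inv Sg Y →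
        ∃ I : StepInputFL' Sig Y q hq, ∀ (hpq : p ≠ q) (hqS : q ∉ Smin ∪ Sg)
          (hρbar : ρbar.IsUnramifiedAt q), Inv (insert q Sg) (I.next hd hp hpq hqS hρbar)) :
    ∃ Y : RTNum ρbar (condFL 𝒪 p Smin Sig) d, Inv Sig Y := by
  suffices h : ∀ Sg : Finset ℕ, Sg ⊆ Sig →
      ∃ Y : RTNum ρbar (condFL 𝒪 p Smin Sg) d, Inv Sg Y from h Sig subset_rfl
  intro Sg
  induction Sg using Finset.induction_on with
  | empty => exact fun _ => ⟨Y₀, h₀⟩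
  | insert q Sg hqSg ih =>
    intro hsub
    have hqSig : q ∈ Sig := hsub (Finset.mem_insert_self q Sg)
    have hSg : Sg ⊆ Sig := fun x hx => hsub (Finset.mem_insert_of_mem hx)
    obtain ⟨Y, hY⟩ := ih hSg
    obtain ⟨hq, hpq, hqSmin, hρ⟩ := hSig q hqSig
    obtain ⟨I, hI⟩ := step Sg hSg q hq hqSig hqSg Y hY
    have hqS : q ∉ Smin ∪ Sg := fun h =>
      (Finset.mem_union.mp h).elim hqSmin hqSg
    exact ⟨I.next hd hp hpq hqS hρ, hI hpq hqS hρ⟩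

/-- **E9, strict-ordinary case, with an invariant on the whole stage.** -/
theorem exists_rtNum_condSO_inv {d : ℕ} (hd : d ≠ 0) (hp : p.Prime) (hp2 : p ≠ 2)
    (Sig : Finset ℕ)
    (hSig : ∀ q ∈ Sig, q.Prime ∧ p ≠ q ∧ q ∉ Smin ∧ ρbar.IsUnramifiedAt q)
    (Inv : ∀ Sg : Finset ℕ, RTNum ρbar (condSO 𝒪 p Smin Sg) d → Prop)
    (Y₀ : RTNum ρbar (condSO 𝒪 p Smin ∅) d) (h₀ : Inv ∅ Y₀)
    (step : ∀ Sg : Finset ℕ, Sg ⊆ Sig → ∀ (q : ℕ) (hq : q.Prime), q ∈ Sig → q ∉ Sg →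
      ∀ Y : RTNum ρbar (condSO 𝒪 p Smin Sg) d, Inv Sg Y →
        ∃ I : StepInputSO' Sig Y q hq, ∀ (hpq : p ≠ q) (hqS : q ∉ Smin ∪ Sg)
          (hρbar : ρbar.IsUnramifiedAt q), Inv (insert q Sg) (I.next hd hp hp2 hpq hqS hρbar)) :
    ∃ Y : RTNum ρbar (condSO 𝒪 p Smin Sig) d, Inv Sig Y := by
  suffices h : ∀ Sg : Finset ℕ, Sg ⊆ Sig →
      ∃ Y : RTNum ρbar (condSO 𝒪 p Smin Sg) d, Inv Sg Y from h Sig subset_rfl
  intro Sg
  induction Sg using Finset.induction_on with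
  | empty => exact fun _ => ⟨Y₀, h₀⟩
  | insert q Sg hqSg ih =>
    intro hsub
    have hqSig : q ∈ Sig := hsub (Finset.mem_insert_self q Sg)
    have hSg : Sg ⊆ Sig := fun x hx => hsub (Finset.mem_insert_of_mem hx)
    obtain ⟨Y, hY⟩ := ih hSg
    obtain ⟨hq, hpq, hqSmin, hρ⟩ := hSig q hqSig
    obtain ⟨I, hI⟩ := step Sg hSg q hq hqSig hqSg Y hY
    have hqS : q ∉ Smin ∪ Sg := fun h =>
      (Finset.mem_union.mp h).elim hqSmin hqSg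
    exact ⟨I.next hd hp hp2 hpq hqS hρ, hI hpq hqS hρ⟩

/-- **E9, flat case, constant-`S` convention**: from the minimal stage `Σ = ∅` to `Σ = Sig`, one
`StepInputFL' Sig` per added prime.  `Inv Sg N S χ w` is a FREE invariant of
`(Σ, level, Hecke set, eigensystem of the modular point, #Ω)` carried through the induction
(take `fun _ _ _ _ _ _ => True` if none is needed). -/
theorem exists_rtNum_condFL' {d : ℕ} (hd : d ≠ 0) (hp : p.Prime) (Sig : Finset ℕ)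
    (hSig : ∀ q ∈ Sig, q.Prime ∧ p ≠ q ∧ q ∉ Smin ∧ ρbar.IsUnramifiedAt q)
    (Inv : Finset ℕ → ∀ (N : ℕ) [NeZero N] (S : Set ℕ), (heckeAlgebra N 2 S →+* 𝒪) → ℕ → Prop)
    (Y₀ : RTNum ρbar (condFL 𝒪 p Smin ∅) d) (h₀ : LevelOK' p Smin Sig ∅ Y₀.rt.N Y₀.rt.S)
    (hI₀ : Inv ∅ Y₀.rt.N Y₀.rt.S (pointChar Y₀) Y₀.w)
    (step : ∀ Sg : Finset ℕ, Sg ⊆ Sig → ∀ (q : ℕ) (hq : q.Prime), q ∈ Sig → q ∉ Sg →
      ∀ Y : RTNum ρbar (condFL 𝒪 p Smin Sg) d, LevelOK' p Smin Sig Sg Y.rt.N Y.rt.S →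
        Inv Sg Y.rt.N Y.rt.S (pointChar Y) Y.w →
          ∃ I : StepInputFL' Sig Y q hq, Inv (insert q Sg) I.N' I.S' I.pointChar' I.w') :
    ∃ Y : RTNum ρbar (condFL 𝒪 p Smin Sig) d,
      LevelOK p Smin Sig Y.rt.N Y.rt.S ∧ Inv Sig Y.rt.N Y.rt.S (pointChar Y) Y.w := by
  obtain ⟨Y, hY, hI⟩ := exists_rtNum_condFL_inv hd hp Sig hSig
    (fun Sg Y => LevelOK' p Smin Sig Sg Y.rt.N Y.rt.S ∧ Inv Sg Y.rt.N Y.rt.S (pointChar Y) Y.w)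
    Y₀ ⟨h₀, hI₀⟩
    (fun Sg hSg q hq hqSig hqSg Y hY => by
      obtain ⟨I, hI⟩ := step Sg hSg q hq hqSig hqSg Y hY.1 hY.2
      exact ⟨I, fun _ _ _ => ⟨I.hlev, hI⟩⟩)
  exact ⟨Y, hY.levelOK, hI⟩

/-- **E9, strict-ordinary case, constant-`S` convention.** -/
theorem exists_rtNum_condSO' {d : ℕ} (hd : d ≠ 0) (hp : p.Prime) (hp2 : p ≠ 2) (Sig : Finset ℕ)
    (hSig : ∀ q ∈ Sig, q.Prime ∧ p ≠ q ∧ q ∉ Smin ∧ ρbar.IsUnramifiedAt q)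
    (Inv : Finset ℕ → ∀ (N : ℕ) [NeZero N] (S : Set ℕ), (heckeAlgebra N 2 S →+* 𝒪) → ℕ → Prop)
    (Y₀ : RTNum ρbar (condSO 𝒪 p Smin ∅) d) (h₀ : LevelOK' p Smin Sig ∅ Y₀.rt.N Y₀.rt.S)
    (hI₀ : Inv ∅ Y₀.rt.N Y₀.rt.S (pointChar Y₀) Y₀.w)
    (step : ∀ Sg : Finset ℕ, Sg ⊆ Sig → ∀ (q : ℕ) (hq : q.Prime), q ∈ Sig → q ∉ Sg →
      ∀ Y : RTNum ρbar (condSO 𝒪 p Smin Sg) d, LevelOK' p Smin Sig Sg Y.rt.N Y.rt.S →
        Inv Sg Y.rt.N Y.rt.S (pointChar Y) Y.w →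
          ∃ I : StepInputSO' Sig Y q hq, Inv (insert q Sg) I.N' I.S' I.pointChar' I.w') :
    ∃ Y : RTNum ρbar (condSO 𝒪 p Smin Sig) d,
      LevelOK p Smin Sig Y.rt.N Y.rt.S ∧ Inv Sig Y.rt.N Y.rt.S (pointChar Y) Y.w := by
  obtain ⟨Y, hY, hI⟩ := exists_rtNum_condSO_inv hd hp hp2 Sig hSig
    (fun Sg Y => LevelOK' p Smin Sig Sg Y.rt.N Y.rt.S ∧ Inv Sg Y.rt.N Y.rt.S (pointChar Y) Y.w)
    Y₀ ⟨h₀, hI₀⟩
    (fun Sg hSg q hq hqSig hqSg Y hY => by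
      obtain ⟨I, hI⟩ := step Sg hSg q hq hqSig hqSg Y hY.1 hY.2
      exact ⟨I, fun _ _ _ => ⟨I.hlev, hI⟩⟩)
  exact ⟨Y, hY.levelOK, hI⟩

/-- the last `∃ X' : RTData …` of `RTConcl`, flat case, constant-`S` convention -/
theorem exists_rtData_condFL' {d : ℕ} (hd : d ≠ 0) (hp : p.Prime) (Sig : Finset ℕ)
    (hSig : ∀ q ∈ Sig, q.Prime ∧ p ≠ q ∧ q ∉ Smin ∧ ρbar.IsUnramifiedAt q)
    (Inv : Finset ℕ → ∀ (N : ℕ) [NeZero N] (S : Set ℕ), (heckeAlgebra N 2 S →+* 𝒪) → ℕ → Prop)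
    (Y₀ : RTNum ρbar (condFL 𝒪 p Smin ∅) d) (h₀ : LevelOK' p Smin Sig ∅ Y₀.rt.N Y₀.rt.S)
    (hI₀ : Inv ∅ Y₀.rt.N Y₀.rt.S (pointChar Y₀) Y₀.w)
    (step : ∀ Sg : Finset ℕ, Sg ⊆ Sig → ∀ (q : ℕ) (hq : q.Prime), q ∈ Sig → q ∉ Sg →
      ∀ Y : RTNum ρbar (condFL 𝒪 p Smin Sg) d, LevelOK' p Smin Sig Sg Y.rt.N Y.rt.S →
        Inv Sg Y.rt.N Y.rt.S (pointChar Y) Y.w →
          ∃ I : StepInputFL' Sig Y q hq, Inv (insert q Sg) I.N' I.S' I.pointChar' I.w') :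
    ∃ X' : RTData ρbar (condFL 𝒪 p Smin Sig),
      ¬ p ^ 2 ∣ X'.N ∧ (∀ q : ℕ, q.Prime → ¬ q ^ 3 ∣ X'.N) ∧
      (∀ q ∈ Smin ∪ Sig, q ≠ p → q ∣ X'.N) ∧
      (∀ ℓ ∈ X'.S, ℓ.Prime → ℓ ∣ X'.N ∨ ℓ = p) := by
  obtain ⟨Y, hY, -⟩ := exists_rtNum_condFL' hd hp Sig hSig Inv Y₀ h₀ hI₀ step
  exact ⟨Y.rt, hY⟩

/-- the last `∃ X' : RTData …` of `RTConcl`, strict-ordinary case, constant-`S` convention -/
theorem exists_rtData_condSO' {d : ℕ} (hd : d ≠ 0) (hp : p.Prime) (hp2 : p ≠ 2)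
    (Sig : Finset ℕ)
    (hSig : ∀ q ∈ Sig, q.Prime ∧ p ≠ q ∧ q ∉ Smin ∧ ρbar.IsUnramifiedAt q)
    (Inv : Finset ℕ → ∀ (N : ℕ) [NeZero N] (S : Set ℕ), (heckeAlgebra N 2 S →+* 𝒪) → ℕ → Prop)
    (Y₀ : RTNum ρbar (condSO 𝒪 p Smin ∅) d) (h₀ : LevelOK' p Smin Sig ∅ Y₀.rt.N Y₀.rt.S)
    (hI₀ : Inv ∅ Y₀.rt.N Y₀.rt.S (pointChar Y₀) Y₀.w)
    (step : ∀ Sg : Finset ℕ, Sg ⊆ Sig → ∀ (q : ℕ) (hq : q.Prime), q ∈ Sig → q ∉ Sg →
      ∀ Y : RTNum ρbar (condSO 𝒪 p Smin Sg) d, LevelOK' p Smin Sig Sg Y.rt.N Y.rt.S →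
        Inv Sg Y.rt.N Y.rt.S (pointChar Y) Y.w →
          ∃ I : StepInputSO' Sig Y q hq, Inv (insert q Sg) I.N' I.S' I.pointChar' I.w') :
    ∃ X' : RTData ρbar (condSO 𝒪 p Smin Sig),
      ¬ p ^ 2 ∣ X'.N ∧ (∀ q : ℕ, q.Prime → ¬ q ^ 3 ∣ X'.N) ∧
      (∀ q ∈ Smin ∪ Sig, q ≠ p → q ∣ X'.N) ∧
      (∀ ℓ ∈ X'.S, ℓ.Prime → ℓ ∣ X'.N ∨ ℓ = p) := by
  obtain ⟨Y, hY, -⟩ := exists_rtNum_condSO' hd hp hp2 Sig hSig Inv Y₀ h₀ hI₀ step
  exact ⟨Y.rt, hY⟩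

end Induction

end Fermat.Agent.GE9.Asm
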