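/-
GATE-E / RISK-4 R4-H support (helper16): **the induction over `Σ` of `GE9/Asm/Chain2` at EVERY
intermediate stage** `Sg ⊆ Sig` (the statement which `Chain2.exists_rtNum_condFL_inv` proves
internally behind a `suffices`).

RISK-4 (case (b), the `p`-new quotient) runs the STRICT-ORDINARY chain over the FLAT engine: the step
supplier at `(Sg, q)` of the strict-ordinary chain needs the FLAT stages `Y^{fl}_{Sg}` and
`Y^{fl}_{insert q Sg}` (R = T at both, `GE9/PNew/DepthRel`), for ARBITRARY `Sg ⊆ Sig₀` and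
`q ∈ Sig₀ ∖ Sg` — not only along one enumeration of `Sig₀`.  The step clause of `Top.HeckeSideFL`
is quantified over all `Sg ⊆ Sig₀`, so the induction reaches every `Sg`:

* `exists_rtNum_condFL_inv_sub`, `exists_rtNum_condSO_inv_sub` : invariant on the whole `RTNum`;
* `exists_rtNum_condFL_sub'`, `exists_rtNum_condSO_sub'` : constant-`S` convention
  (`LevelOK' p Smin Sig Sg` + the free invariant `Inv Sg N S χ w`), the shape of the step clause of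
  `Top.HeckeSideFL` / `Top.HeckeStepsSO` VERBATIM;
* `exists_rtNum_condFL_pair'` : the two ADJACENT flat stages `Sg`, `insert q Sg` in one call.
-/
import Mathlib
import Fermat.Agent.GE9.Asm.Chain2

set_option autoImplicit false
set_option linter.unusedSectionVars false
set_option linter.style.haveILetI false

namespace Fermat.Agent.GE9.Asm.Chain2Sub

open IsLocalRing Module Matrix Function Polynomial
open Fermat.Agent.Common_helper32 Fermat.Agent.GE.Graph Fermat.Agent.GE9.Ind CuspForm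
  Fermat.Agent.GE9.TanGrow Fermat.Agent.GE9.CotGrowth Fermat.Agent.GE9.NumCrit
  Fermat.Agent.GE9.Asm

variable {𝒪 : Type} [CommRing 𝒪] [IsDomain 𝒪] [IsDiscreteValuationRing 𝒪]
  [IsAdicComplete (maximalIdeal 𝒪) 𝒪] [Finite (ResidueField 𝒪)]
  {ρbar : ResidualGaloisRep (ResidueField 𝒪)} {p : ℕ} {Smin : Finset ℕ}

/-- **E9, flat case, every intermediate stage, invariant on the whole stage.** -/
theorem exists_rtNum_condFL_inv_sub {d : ℕ} (hd : d ≠ 0) (hp : p.Prime) (Sig : Finset ℕ)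
    (hSig : ∀ q ∈ Sig, q.Prime ∧ p ≠ q ∧ q ∉ Smin ∧ ρbar.IsUnramifiedAt q)
    (Inv : ∀ Sg : Finset ℕ, RTNum ρbar (condFL 𝒪 p Smin Sg) d → Prop)
    (Y₀ : RTNum ρbar (condFL 𝒪 p Smin ∅) d) (h₀ : Inv ∅ Y₀)
    (step : ∀ Sg : Finset ℕ, Sg ⊆ Sig → ∀ (q : ℕ) (hq : q.Prime), q ∈ Sig → q ∉ Sg →
      ∀ Y : RTNum ρbar (condFL 𝒪 p Smin Sg) d, Inv Sg Y →
        ∃ I : StepInputFL' Sig Y q hq, ∀ (hpq : p ≠ q) (hqS : q ∉ Smin ∪ Sg)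
          (hρbar : ρbar.IsUnramifiedAt q), Inv (insert q Sg) (I.next hd hp hpq hqS hρbar)) :
    ∀ Sg : Finset ℕ, Sg ⊆ Sig → ∃ Y : RTNum ρbar (condFL 𝒪 p Smin Sg) d, Inv Sg Y := by
  intro Sg
  induction Sg using Finset.induction_on with
  | empty => exact fun _ => ⟨Y₀, h₀⟩
  | insert q Sg hqSg ih =>
    intro hsub
    have hqSig : q ∈ Sig := hsub (Finset.mem_insert_self q Sg)
    have hSg : Sg ⊆ Sig := fun x hx => hsub (Finset.mem_insert_of_mem hx)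
    obtain ⟨Y, hY⟩ := ih hSg
    obtain ⟨hq, hpq, hqSmin, hρ⟩ := hSig q hqSig
    obtain ⟨I, hI⟩ := step Sg hSg q hq hqSig hqSg Y hY
    have hqS : q ∉ Smin ∪ Sg := fun h =>
      (Finset.mem_union.mp h).elim hqSmin hqSg
    exact ⟨I.next hd hp hpq hqS hρ, hI hpq hqS hρ⟩

/-- **E9, strict-ordinary case, every intermediate stage, invariant on the whole stage.** -/
theorem exists_rtNum_condSO_inv_sub {d : ℕ} (hd : d ≠ 0) (hp : p.Prime) (hp2 : p ≠ 2)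
    (Sig : Finset ℕ)
    (hSig : ∀ q ∈ Sig, q.Prime ∧ p ≠ q ∧ q ∉ Smin ∧ ρbar.IsUnramifiedAt q)
    (Inv : ∀ Sg : Finset ℕ, RTNum ρbar (condSO 𝒪 p Smin Sg) d → Prop)
    (Y₀ : RTNum ρbar (condSO 𝒪 p Smin ∅) d) (h₀ : Inv ∅ Y₀)
    (step : ∀ Sg : Finset ℕ, Sg ⊆ Sig → ∀ (q : ℕ) (hq : q.Prime), q ∈ Sig → q ∉ Sg →
      ∀ Y : RTNum ρbar (condSO 𝒪 p Smin Sg) d, Inv Sg Y →
        ∃ I : StepInputSO' Sig Y q hq, ∀ (hpq : p ≠ q) (hqS : q ∉ Smin ∪ Sg)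
          (hρbar : ρbar.IsUnramifiedAt q), Inv (insert q Sg) (I.next hd hp hp2 hpq hqS hρbar)) :
    ∀ Sg : Finset ℕ, Sg ⊆ Sig → ∃ Y : RTNum ρbar (condSO 𝒪 p Smin Sg) d, Inv Sg Y := by
  intro Sg
  induction Sg using Finset.induction_on with
  | empty => exact fun _ => ⟨Y₀, h₀⟩
  | insert q Sg hqSg ih =>
    intro hsub
    have hqSig : q ∈ Sig := hsub (Finset.mem_insert_self q Sg)
    have hSg : Sg ⊆ Sig := fun x hx => hsub (Finset.mem_insert_of_mem hx)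
    obtain ⟨Y, hY⟩ := ih hSg
    obtain ⟨hq, hpq, hqSmin, hρ⟩ := hSig q hqSig
    obtain ⟨I, hI⟩ := step Sg hSg q hq hqSig hqSg Y hY
    have hqS : q ∉ Smin ∪ Sg := fun h =>
      (Finset.mem_union.mp h).elim hqSmin hqSg
    exact ⟨I.next hd hp hp2 hpq hqS hρ, hI hpq hqS hρ⟩

/-- **E9, flat case, constant-`S` convention, every intermediate stage**: the hypotheses are those
of `Chain2.exists_rtNum_condFL'` VERBATIM (= the base stage + the step clause of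
`Top.HeckeSideFL`); the conclusion holds at EVERY `Sg ⊆ Sig`. -/
theorem exists_rtNum_condFL_sub' {d : ℕ} (hd : d ≠ 0) (hp : p.Prime) (Sig : Finset ℕ)
    (hSig : ∀ q ∈ Sig, q.Prime ∧ p ≠ q ∧ q ∉ Smin ∧ ρbar.IsUnramifiedAt q)
    (Inv : Finset ℕ → ∀ (N : ℕ) [NeZero N] (S : Set ℕ), (heckeAlgebra N 2 S →+* 𝒪) → ℕ → Prop)
    (Y₀ : RTNum ρbar (condFL 𝒪 p Smin ∅) d) (h₀ : LevelOK' p Smin Sig ∅ Y₀.rt.N Y₀.rt.S)
    (hI₀ : Inv ∅ Y₀.rt.N Y₀.rt.S (pointChar Y₀) Y₀.w)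
    (step : ∀ Sg : Finset ℕ, Sg ⊆ Sig → ∀ (q : ℕ) (hq : q.Prime), q ∈ Sig → q ∉ Sg →
      ∀ Y : RTNum ρbar (condFL 𝒪 p Smin Sg) d, LevelOK' p Smin Sig Sg Y.rt.N Y.rt.S →
        Inv Sg Y.rt.N Y.rt.S (pointChar Y) Y.w →
          ∃ I : StepInputFL' Sig Y q hq, Inv (insert q Sg) I.N' I.S' I.pointChar' I.w') :
    ∀ Sg : Finset ℕ, Sg ⊆ Sig → ∃ Y : RTNum ρbar (condFL 𝒪 p Smin Sg) d,
      LevelOK' p Smin Sig Sg Y.rt.N Y.rt.S ∧ Inv Sg Y.rt.N Y.rt.S (pointChar Y) Y.w :=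
  exists_rtNum_condFL_inv_sub hd hp Sig hSig
    (fun Sg Y => LevelOK' p Smin Sig Sg Y.rt.N Y.rt.S ∧ Inv Sg Y.rt.N Y.rt.S (pointChar Y) Y.w)
    Y₀ ⟨h₀, hI₀⟩
    (fun Sg hSg q hq hqSig hqSg Y hY => by
      obtain ⟨I, hI⟩ := step Sg hSg q hq hqSig hqSg Y hY.1 hY.2
      exact ⟨I, fun _ _ _ => ⟨I.hlev, hI⟩⟩)

/-- **E9, strict-ordinary case, constant-`S` convention, every intermediate stage.** -/
theorem exists_rtNum_condSO_sub' {d : ℕ} (hd : d ≠ 0) (hp : p.Prime) (hp2 : p ≠ 2)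
    (Sig : Finset ℕ)
    (hSig : ∀ q ∈ Sig, q.Prime ∧ p ≠ q ∧ q ∉ Smin ∧ ρbar.IsUnramifiedAt q)
    (Inv : Finset ℕ → ∀ (N : ℕ) [NeZero N] (S : Set ℕ), (heckeAlgebra N 2 S →+* 𝒪) → ℕ → Prop)
    (Y₀ : RTNum ρbar (condSO 𝒪 p Smin ∅) d) (h₀ : LevelOK' p Smin Sig ∅ Y₀.rt.N Y₀.rt.S)
    (hI₀ : Inv ∅ Y₀.rt.N Y₀.rt.S (pointChar Y₀) Y₀.w)
    (step : ∀ Sg : Finset ℕ, Sg ⊆ Sig → ∀ (q : ℕ) (hq : q.Prime), q ∈ Sig → q ∉ Sg →
      ∀ Y : RTNum ρbar (condSO 𝒪 p Smin Sg) d, LevelOK' p Smin Sig Sg Y.rt.N Y.rt.S →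
        Inv Sg Y.rt.N Y.rt.S (pointChar Y) Y.w →
          ∃ I : StepInputSO' Sig Y q hq, Inv (insert q Sg) I.N' I.S' I.pointChar' I.w') :
    ∀ Sg : Finset ℕ, Sg ⊆ Sig → ∃ Y : RTNum ρbar (condSO 𝒪 p Smin Sg) d,
      LevelOK' p Smin Sig Sg Y.rt.N Y.rt.S ∧ Inv Sg Y.rt.N Y.rt.S (pointChar Y) Y.w :=
  exists_rtNum_condSO_inv_sub hd hp hp2 Sig hSig
    (fun Sg Y => LevelOK' p Smin Sig Sg Y.rt.N Y.rt.S ∧ Inv Sg Y.rt.N Y.rt.S (pointChar Y) Y.w)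
    Y₀ ⟨h₀, hI₀⟩
    (fun Sg hSg q hq hqSig hqSg Y hY => by
      obtain ⟨I, hI⟩ := step Sg hSg q hq hqSig hqSg Y hY.1 hY.2
      exact ⟨I, fun _ _ _ => ⟨I.hlev, hI⟩⟩)

/-- **the two ADJACENT flat stages `Sg`, `insert q Sg`** (`Sg ⊆ Sig`, `q ∈ Sig ∖ Sg`) in one call:
the input pair `(X', Xn) := (Y.rt, Y'.rt)` of `GE9/PNew/DepthRel`. -/
theorem exists_rtNum_condFL_pair' {d : ℕ} (hd : d ≠ 0) (hp : p.Prime) (Sig : Finset ℕ)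
    (hSig : ∀ q ∈ Sig, q.Prime ∧ p ≠ q ∧ q ∉ Smin ∧ ρbar.IsUnramifiedAt q)
    (Inv : Finset ℕ → ∀ (N : ℕ) [NeZero N] (S : Set ℕ), (heckeAlgebra N 2 S →+* 𝒪) → ℕ → Prop)
    (Y₀ : RTNum ρbar (condFL 𝒪 p Smin ∅) d) (h₀ : LevelOK' p Smin Sig ∅ Y₀.rt.N Y₀.rt.S)
    (hI₀ : Inv ∅ Y₀.rt.N Y₀.rt.S (pointChar Y₀) Y₀.w)
    (step : ∀ Sg : Finset ℕ, Sg ⊆ Sig → ∀ (q : ℕ) (hq : q.Prime), q ∈ Sig → q ∉ Sg →
      ∀ Y : RTNum ρbar (condFL 𝒪 p Smin Sg) d, LevelOK' p Smin Sig Sg Y.rt.N Y.rt.S →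
        Inv Sg Y.rt.N Y.rt.S (pointChar Y) Y.w →
          ∃ I : StepInputFL' Sig Y q hq, Inv (insert q Sg) I.N' I.S' I.pointChar' I.w')
    (Sg : Finset ℕ) (hSg : Sg ⊆ Sig) (q : ℕ) (hqSig : q ∈ Sig) :
    ∃ (Y : RTNum ρbar (condFL 𝒪 p Smin Sg) d)
      (Y' : RTNum ρbar (condFL 𝒪 p Smin (insert q Sg)) d),
      (LevelOK' p Smin Sig Sg Y.rt.N Y.rt.S ∧ Inv Sg Y.rt.N Y.rt.S (pointChar Y) Y.w) ∧
      (LevelOK' p Smin Sig (insert q Sg) Y'.rt.N Y'.rt.S ∧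
        Inv (insert q Sg) Y'.rt.N Y'.rt.S (pointChar Y') Y'.w) := by
  obtain ⟨Y, hY⟩ := exists_rtNum_condFL_sub' hd hp Sig hSig Inv Y₀ h₀ hI₀ step Sg hSg
  obtain ⟨Y', hY'⟩ := exists_rtNum_condFL_sub' hd hp Sig hSig Inv Y₀ h₀ hI₀ step (insert q Sg)
    (Finset.insert_subset hqSig hSg)
  exact ⟨Y, Y', hY, hY'⟩

end Fermat.Agent.GE9.Asm.Chain2Sub
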